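/-
Integral lattices of functions on a finite group and the balls they cut out in its group algebra.
-/
import Mathlib

set_option autoImplicit false
set_option linter.unusedSectionVars false
set_option linter.style.haveILetI false

noncomputable section

namespace Fermat.Agent.FlatBound

open AddMonoidAlgebra

local notation "ℚb" => AlgebraicClosure ℚ

/-- Pairs of functions as functions of two variables. -/
def boxes {R : Type} [CommSemiring R] {M N : Type} (S : Set (M → R)) (T : Set (N → R)) :
    Set (M × N → R) :=
  {F | ∃ a ∈ S, ∃ b ∈ T, F = fun z => a z.1 * b z.2}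

/-- An algebra of integral functions on a group, compatible with addition and spanning all functions
up to a bounded factor. -/
structure CoordLat (A : ValuationSubring (AlgebraicClosure ℚ)) (M : Type) [AddCommGroup M] where
  S : Subalgebra A (M → ℚb)
  int : ∀ f ∈ S, ∀ x, f x ∈ A
  add : ∀ f ∈ S, (fun z : M × M => f (z.1 + z.2)) ∈
    Submodule.span A (boxes (S : Set (M → ℚb)) (S : Set (M → ℚb)))
  exists_scale : ∃ δ : ℚb, δ ≠ 0 ∧ ∀ e : M → ℚb, (∀ x, e x ∈ A) → δ • e ∈ S

namespace CoordLat

variable {A : ValuationSubring (AlgebraicClosure ℚ)} {M N P : Type} [AddCommGroup M] [AddCommGroup N]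
  [AddCommGroup P]

theorem algebraMap_mem (L : CoordLat A M) {a : ℚb} (ha : a ∈ A) : (fun _ : M => a) ∈ L.S :=
  Subalgebra.algebraMap_mem L.S (⟨a, ha⟩ : A)

theorem one_mem_S (L : CoordLat A M) : (fun _ : M => (1 : ℚb)) ∈ L.S := one_mem L.S

/-- The products of two functions, as a subalgebra. -/
def prodS (L : CoordLat A M) (L' : CoordLat A N) : Subalgebra A (M × N → ℚb) :=
  (Submodule.span A (boxes (L.S : Set (M → ℚb)) (L'.S : Set (N → ℚb)))).toSubalgebra
    (Submodule.subset_span ⟨1, one_mem L.S, 1, one_mem L'.S, funext fun _ => (mul_one _).symm⟩)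
    fun F G hF hG => by
      induction hF using Submodule.span_induction with
      | mem F hF =>
        induction hG using Submodule.span_induction with
        | mem G hG =>
          obtain ⟨a, ha, b, hb, rfl⟩ := hF
          obtain ⟨a', ha', b', hb', rfl⟩ := hG
          exact Submodule.subset_span ⟨a * a', mul_mem ha ha', b * b', mul_mem hb hb',
            funext fun z => mul_mul_mul_comm _ _ _ _⟩
        | zero => rw [mul_zero]; exact zero_mem _
        | add G G' _ _ h h' => rw [mul_add]; exact add_mem h h'
        | smul r G _ h => rw [mul_smul_comm]; exact Submodule.smul_mem _ r h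
      | zero => rw [zero_mul]; exact zero_mem _
      | add F F' _ _ h h' => rw [add_mul]; exact add_mem h h'
      | smul r F _ h => rw [smul_mul_assoc]; exact Submodule.smul_mem _ r h

theorem fst_mem {L : CoordLat A M} {L' : CoordLat A N} {a : M → ℚb} (ha : a ∈ L.S) :
    (fun z : M × N => a z.1) ∈ L.prodS L' :=
  Submodule.subset_span ⟨a, ha, 1, one_mem L'.S, funext fun _ => (mul_one _).symm⟩

theorem snd_mem {L : CoordLat A M} {L' : CoordLat A N} {b : N → ℚb} (hb : b ∈ L'.S) :
    (fun z : M × N => b z.2) ∈ L.prodS L' :=
  Submodule.subset_span ⟨1, one_mem L.S, b, hb, funext fun _ => (one_mul _).symm⟩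

/-- The lattice on a product. -/
def prod [Finite M] [Finite N] (L : CoordLat A M) (L' : CoordLat A N) : CoordLat A (M × N) where
  S := L.prodS L'
  int f hf := by
    change f ∈ Submodule.span A _ at hf
    induction hf using Submodule.span_induction with
    | mem F hF =>
      obtain ⟨a, ha, b, hb, rfl⟩ := hF
      exact fun z => mul_mem (L.int a ha _) (L'.int b hb _)
    | zero => exact fun _ => zero_mem A
    | add F G _ _ h h' => exact fun z => add_mem (h z) (h' z)
    | smul r F _ h => exact fun z => mul_mem r.2 (h z)
  add f hf := by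
    change f ∈ Submodule.span A _ at hf
    let T := Submodule.span A (boxes (L.prodS L' : Set (M × N → ℚb)) (L.prodS L' : Set (M × N → ℚb)))
    change _ ∈ T
    induction hf using Submodule.span_induction with
    | mem F hF =>
      obtain ⟨a, ha, b, hb, rfl⟩ := hF
      have key : ∀ G ∈ Submodule.span A (boxes (L.S : Set (M → ℚb)) (L.S : Set (M → ℚb))),
          ∀ H ∈ Submodule.span A (boxes (L'.S : Set (N → ℚb)) (L'.S : Set (N → ℚb))),
          (fun z : (M × N) × (M × N) => G (z.1.1, z.2.1) * H (z.1.2, z.2.2)) ∈ T := by
        intro G hG H hH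
        induction hG using Submodule.span_induction with
        | mem G hG =>
          induction hH using Submodule.span_induction with
          | mem H hH =>
            obtain ⟨a₁, ha₁, a₂, ha₂, rfl⟩ := hG
            obtain ⟨b₁, hb₁, b₂, hb₂, rfl⟩ := hH
            exact Submodule.subset_span ⟨fun z => a₁ z.1 * b₁ z.2, mul_mem (fst_mem ha₁) (snd_mem hb₁),
              fun z => a₂ z.1 * b₂ z.2, mul_mem (fst_mem ha₂) (snd_mem hb₂),
              funext fun z => mul_mul_mul_comm _ _ _ _⟩
          | zero =>
            convert T.zero_mem using 1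
            funext z
            simp
          | add H H' _ _ h h' =>
            convert T.add_mem h h' using 1
            funext z
            simp [mul_add]
          | smul r H _ h =>
            convert T.smul_mem r h using 1
            funext z
            simp [Pi.smul_apply, Algebra.smul_def]
            ring
        | zero =>
          convert T.zero_mem using 1
          funext z
          simp
        | add G G' _ _ h h' =>
          convert T.add_mem h h' using 1
          funext z
          simp [add_mul]
        | smul r G _ h =>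
          convert T.smul_mem r h using 1
          funext z
          simp [Pi.smul_apply, Algebra.smul_def]
          ring
      exact key _ (L.add a ha) _ (L'.add b hb)
    | zero => exact T.zero_mem
    | add F G _ _ h h' => exact T.add_mem h h'
    | smul r F _ h => exact T.smul_mem r h
  exists_scale := by
    classical
    haveI := Fintype.ofFinite M
    obtain ⟨δ, hδ, h⟩ := L.exists_scale
    obtain ⟨δ', hδ', h'⟩ := L'.exists_scale
    refine ⟨δ * δ', mul_ne_zero hδ hδ', fun e he => ?_⟩
    have hsum : (δ * δ') • e = ∑ x : M, (fun z : M × N =>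
        (δ • fun y : M => if y = x then (1 : ℚb) else 0) z.1 * (δ' • fun y => e (x, y)) z.2) := by
      funext z
      simp only [Finset.sum_apply, Pi.smul_apply, smul_eq_mul, mul_ite, mul_one, mul_zero, ite_mul,
        zero_mul, Finset.sum_ite_eq, Finset.mem_univ, if_true]
      ring
    rw [hsum]
    refine sum_mem fun x _ => mul_mem (fst_mem (h _ fun y => ?_)) (snd_mem (h' _ fun y => he _))
    by_cases hy : y = x
    · rw [if_pos hy]; exact one_mem A
    · rw [if_neg hy]; exact zero_mem A

/-- Homomorphisms pulling integral functions back to integral functions. -/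
def IsHom (L : CoordLat A M) (L' : CoordLat A N) (F : M →+ N) : Prop :=
  ∀ f ∈ L'.S, (fun x => f (F x)) ∈ L.S

variable {L : CoordLat A M} {L' : CoordLat A N} {L'' : CoordLat A P}

theorem isHom_id : L.IsHom L (AddMonoidHom.id M) := fun _ hf => hf

theorem IsHom.comp {F : M →+ N} {G : N →+ P} (hG : L'.IsHom L'' G) (hF : L.IsHom L' F) :
    L.IsHom L'' (G.comp F) := fun f hf => hF _ (hG f hf)

theorem isHom_zero : L.IsHom L' (0 : M →+ N) := fun f hf => L.algebraMap_mem (L'.int f hf 0)

variable [Finite M] [Finite N] [Finite P]

theorem isHom_fst : (L.prod L').IsHom L (AddMonoidHom.fst M N) := fun _ hf => fst_mem hf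

theorem isHom_snd : (L.prod L').IsHom L' (AddMonoidHom.snd M N) := fun _ hf => snd_mem hf

theorem IsHom.prodMk {F : P →+ M} {G : P →+ N} (hF : L''.IsHom L F) (hG : L''.IsHom L' G) :
    L''.IsHom (L.prod L') (F.prod G) := fun f hf => by
  change f ∈ Submodule.span A _ at hf
  induction hf using Submodule.span_induction with
  | mem f hf =>
    obtain ⟨a, ha, b, hb, rfl⟩ := hf
    exact mul_mem (hF a ha) (hG b hb)
  | zero => exact L''.S.zero_mem
  | add f g _ _ h h' => exact L''.S.add_mem h h'
  | smul r f _ h => exact L''.S.smul_mem h r

theorem IsHom.add' {F G : N →+ M} (hF : L'.IsHom L F) (hG : L'.IsHom L G) : L'.IsHom L (F + G) :=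
  fun f hf => (IsHom.prodMk hF hG) (fun z : M × M => f (z.1 + z.2)) (L.add f hf)

theorem IsHom.nsmul {F : N →+ M} (hF : L'.IsHom L F) : ∀ n : ℕ, L'.IsHom L (n • F)
  | 0 => by rw [zero_smul]; exact isHom_zero
  | n + 1 => by rw [succ_nsmul]; exact (hF.nsmul n).add' hF

/-! ## The group algebra -/

/-- The pairing of the group algebra with functions. -/
def pairing (f : M → ℚb) : AddMonoidAlgebra ℚb M →ₗ[ℚb] ℚb :=
  (Finsupp.linearCombination ℚb f).comp (coeffLinearEquiv ℚb).toLinearMap

omit [AddCommGroup M] [Finite M] in
@[simp]
theorem pairing_single (f : M → ℚb) (x : M) (r : ℚb) : pairing f (single x r) = r * f x := by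
  simp [pairing]

omit [AddCommGroup M] [Finite M] in
theorem pairing_add_left (f g : M → ℚb) (u : AddMonoidAlgebra ℚb M) :
    pairing (f + g) u = pairing f u + pairing g u := by
  induction u using AddMonoidAlgebra.induction_linear with
  | zero => simp
  | add a b ha hb => simp only [map_add, ha, hb]; ring
  | single x r => simp [mul_add]

omit [AddCommGroup M] [Finite M] in
theorem pairing_smul_left (c : ℚb) (f : M → ℚb) (u : AddMonoidAlgebra ℚb M) :
    pairing (c • f) u = c * pairing f u := by
  induction u using AddMonoidAlgebra.induction_linear with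
  | zero => simp
  | add a b ha hb => simp only [map_add, ha, hb]; ring
  | single x r => simp [mul_left_comm]

/-- Pushforward along a homomorphism. -/
def push (F : M →+ N) : AddMonoidAlgebra ℚb M →+* AddMonoidAlgebra ℚb N :=
  mapDomainRingHom ℚb F

omit [Finite M] [Finite N] in
@[simp]
theorem push_single (F : M →+ N) (x : M) (r : ℚb) : push F (single x r) = single (F x) r :=
  mapDomain_single

omit [Finite M] [Finite N] [Finite P] in
theorem push_push (G : N →+ P) (F : M →+ N) (u : AddMonoidAlgebra ℚb M) :
    push G (push F u) = push (G.comp F) u := by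
  induction u using AddMonoidAlgebra.induction_linear with
  | zero => simp
  | add a b ha hb => simp only [map_add, ha, hb]
  | single x r => simp

omit [Finite M] [Finite N] in
theorem push_smul (F : M →+ N) (c : ℚb) (u : AddMonoidAlgebra ℚb M) :
    push F (c • u) = c • push F u := by
  induction u using AddMonoidAlgebra.induction_linear with
  | zero => simp
  | add a b ha hb => simp only [smul_add, map_add, ha, hb]
  | single x r => simp

omit [Finite M] [Finite N] in
theorem pairing_push (f : N → ℚb) (F : M →+ N) (u : AddMonoidAlgebra ℚb M) :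
    pairing f (push F u) = pairing (fun x => f (F x)) u := by
  induction u using AddMonoidAlgebra.induction_linear with
  | zero => simp
  | add a b ha hb => simp only [map_add, ha, hb]
  | single x r => simp

omit [Finite M] [Finite N] in
theorem pairing_box (a : M → ℚb) (b : N → ℚb) (u : AddMonoidAlgebra ℚb M)
    (w : AddMonoidAlgebra ℚb N) :
    pairing (fun z : M × N => a z.1 * b z.2)
      (push (AddMonoidHom.inl M N) u * push (AddMonoidHom.inr M N) w) =
      pairing a u * pairing b w := by
  induction u using AddMonoidAlgebra.induction_linear with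
  | zero => simp
  | add x y hx hy => simp only [map_add, add_mul, hx, hy]
  | single x r =>
    induction w using AddMonoidAlgebra.induction_linear with
    | zero => simp
    | add x' y' hx hy => simp only [map_add, mul_add, hx, hy]
    | single y s =>
      simp [single_mul_single]
      ring

omit [Finite M] in
theorem mul_eq_push (u w : AddMonoidAlgebra ℚb M) :
    u * w = push (AddMonoidHom.fst M M + AddMonoidHom.snd M M)
      (push (AddMonoidHom.inl M M) u * push (AddMonoidHom.inr M M) w) := by
  rw [map_mul, push_push, push_push]
  induction u using AddMonoidAlgebra.induction_linear with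
  | zero => simp
  | add a b ha hb => simp only [map_add, add_mul, ha, hb]
  | single x r =>
    induction w using AddMonoidAlgebra.induction_linear with
    | zero => simp
    | add a b ha hb => simp only [map_add, mul_add, ha, hb]
    | single y s => simp

/-- The elements whose pairings with integral functions are bounded by `γ`. -/
def InBall (L : CoordLat A M) (γ : A.ValueGroup) (u : AddMonoidAlgebra ℚb M) : Prop :=
  ∀ f ∈ L.S, A.valuation (pairing f u) ≤ γ

variable {u w : AddMonoidAlgebra ℚb M} {γ δ : A.ValueGroup}

omit [Finite M] in
theorem InBall.zero (L : CoordLat A M) (γ : A.ValueGroup) : L.InBall γ 0 :=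
  fun f _ => by rw [map_zero, map_zero]; exact zero_le

omit [Finite M] in
theorem InBall.mono (h : L.InBall γ u) (hγ : γ ≤ δ) : L.InBall δ u := fun f hf => (h f hf).trans hγ

omit [Finite M] in
theorem InBall.add (h : L.InBall γ u) (h' : L.InBall γ w) : L.InBall γ (u + w) := fun f hf => by
  rw [map_add]
  exact (A.valuation.map_add _ _).trans (max_le (h f hf) (h' f hf))

omit [Finite M] in
theorem InBall.neg (h : L.InBall γ u) : L.InBall γ (-u) := fun f hf => by
  rw [map_neg, Valuation.map_neg]
  exact h f hf

omit [Finite M] in
theorem InBall.sub (h : L.InBall γ u) (h' : L.InBall γ w) : L.InBall γ (u - w) := by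
  rw [sub_eq_add_neg]
  exact h.add h'.neg

omit [Finite M] in
theorem InBall.smul (h : L.InBall γ u) (c : ℚb) : L.InBall (A.valuation c * γ) (c • u) :=
  fun f hf => by
    rw [map_smul, smul_eq_mul, map_mul]
    exact mul_le_mul' le_rfl (h f hf)

omit [Finite M] in
theorem InBall.sum {ι : Type*} (s : Finset ι) {g : ι → AddMonoidAlgebra ℚb M}
    (h : ∀ i ∈ s, L.InBall γ (g i)) : L.InBall γ (∑ i ∈ s, g i) :=
  Finset.sum_induction _ (L.InBall γ) (fun _ _ => InBall.add) (InBall.zero L γ) h

omit [Finite M] in
theorem inBall_single {x : M} {r : ℚb} : L.InBall (A.valuation r) (single x r) := fun f hf => by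
  rw [pairing_single, map_mul]
  exact mul_le_of_le_one_right' ((A.valuation_le_one_iff _).mpr (L.int f hf x))

omit [Finite M] in
theorem inBall_one : L.InBall 1 (1 : AddMonoidAlgebra ℚb M) := by
  have h := inBall_single (L := L) (x := 0) (r := 1)
  rwa [map_one, ← one_def] at h

omit [Finite M] [Finite N] in
theorem InBall.push (h : L.InBall γ u) {F : M →+ N} (hF : L.IsHom L' F) :
    L'.InBall γ (CoordLat.push F u) := fun f hf => by
  rw [pairing_push]
  exact h _ (hF f hf)

theorem InBall.mul (h : L.InBall γ u) (h' : L.InBall δ w) : L.InBall (γ * δ) (u * w) := by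
  intro f hf
  rw [mul_eq_push, pairing_push]
  set z := CoordLat.push (AddMonoidHom.inl M M) u * CoordLat.push (AddMonoidHom.inr M M) w
  suffices key : ∀ F ∈ Submodule.span A (boxes (L.S : Set (M → ℚb)) (L.S : Set (M → ℚb))),
      A.valuation (pairing F z) ≤ γ * δ from key _ (L.add f hf)
  intro F hF
  induction hF using Submodule.span_induction with
  | mem F hF =>
    obtain ⟨a, ha, b, hb, rfl⟩ := hF
    rw [pairing_box, map_mul]
    exact mul_le_mul' (h a ha) (h' b hb)
  | zero =>
    rw [← zero_smul ℚb (0 : M × M → ℚb), pairing_smul_left, zero_mul, map_zero]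
    exact zero_le
  | add F G _ _ hF hG =>
    rw [pairing_add_left]
    exact (A.valuation.map_add _ _).trans (max_le hF hG)
  | smul r F _ hF =>
    rw [show r • F = (r : ℚb) • F from rfl, pairing_smul_left, map_mul]
    exact (mul_le_of_le_one_left' ((A.valuation_le_one_iff _).mpr r.2)).trans hF

theorem InBall.pow (h : L.InBall γ u) : ∀ n, L.InBall (γ ^ n) (u ^ n)
  | 0 => by rw [pow_zero, pow_zero]; exact inBall_one
  | n + 1 => by rw [pow_succ, pow_succ]; exact (h.pow n).mul h

end CoordLat

end Fermat.Agent.FlatBound
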