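/-
The truncated exponential on the small balls of a group algebra.
-/
import Fermat.Agent.FlatBound.Lift.Lat
import Fermat.Agent.GalRep.PlaceVal

set_option autoImplicit false
set_option linter.unusedSectionVars false
set_option linter.style.haveILetI false

noncomputable section

namespace Fermat.Agent.FlatBound

open Fermat.Agent.Galois

local notation "ℚb" => AlgebraicClosure ℚ

variable {A : ValuationSubring (AlgebraicClosure ℚ)} {p : ℕ} [Fact p.Prime]
  (hA : A.LiesOverPrime p)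

/-- `γ` is below the radius of convergence of the exponential. -/
def Small (A : ValuationSubring (AlgebraicClosure ℚ)) (p : ℕ) (γ : A.ValueGroup) : Prop :=
  γ ^ (p - 1) < A.valuation (p : ℚb)

theorem val_p_ne_zero : A.valuation (p : ℚb) ≠ 0 :=
  (map_ne_zero _).mpr (Nat.cast_ne_zero.mpr (Fact.out : p.Prime).ne_zero)

include hA in
theorem val_p_lt_one : A.valuation (p : ℚb) < 1 := A.mem_nonunits_iff.mp hA

include hA in
/-- The value group has rank one. -/
theorem exists_pow_le {γ ε : A.ValueGroup} (hγ : γ < 1) (hε : ε ≠ 0) : ∃ N : ℕ, γ ^ N ≤ ε := by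
  rcases eq_or_ne γ 0 with rfl | hγ0
  · exact ⟨1, by rw [pow_one]; exact zero_le⟩
  obtain ⟨g, rfl⟩ := A.valuation_surjective γ
  obtain ⟨e, rfl⟩ := A.valuation_surjective ε
  have hg0 : g ≠ 0 := fun h => hγ0 (by rw [h, map_zero])
  have hx : g⁻¹ ∉ A := fun h => by
    have h1 := (A.valuation_le_one_iff _).mpr h
    rw [map_inv₀, inv_le_one₀ (zero_lt_iff.mpr hγ0)] at h1
    exact not_lt.mpr h1 hγ
  obtain ⟨N, hN⟩ := GalRep.exists_pow_mul_not_mem (Fact.out : p.Prime) hA hx
    (fun h => hε (by rw [h, map_zero]) : e ≠ 0)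
  refine ⟨N, ?_⟩
  have h1 : ¬ A.valuation (e * g⁻¹ ^ N) ≤ 1 := fun h => hN ((A.valuation_le_one_iff _).mp h)
  rw [map_mul, map_pow, map_inv₀, inv_pow, ← div_eq_mul_inv,
    div_le_one₀ (pow_pos (zero_lt_iff.mpr hγ0) N), not_le] at h1
  exact h1.le

include hA in
theorem Small.le_one {γ : A.ValueGroup} (h : Small A p γ) : γ ≤ 1 :=
  (pow_le_one_iff_of_nonneg zero_le (Nat.sub_ne_zero_of_lt (Fact.out : p.Prime).one_lt)).mp
    (h.trans (val_p_lt_one hA)).le

include hA in
theorem Small.lt_one {γ : A.ValueGroup} (h : Small A p γ) : γ < 1 :=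
  (h.le_one hA).lt_of_ne fun h1 => by
    rw [Small, h1, one_pow] at h
    exact lt_irrefl _ (h.trans (val_p_lt_one hA))

include hA in
theorem Small.mul_le {γ δ : A.ValueGroup} (h : Small A p γ) (hδ : δ ≤ 1) : Small A p (γ * δ) :=
  lt_of_le_of_lt (pow_le_pow_left₀ zero_le (mul_le_of_le_one_right' hδ) _) h

include hA in
theorem val_factorial (n : ℕ) :
    A.valuation ((n.factorial : ℕ) : ℚb) =
      A.valuation (p : ℚb) ^ padicValNat p n.factorial := by
  have hp : p.Prime := Fact.out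
  obtain ⟨k, m, hm, he⟩ := Nat.exists_eq_pow_mul_and_not_dvd n.factorial_ne_zero p hp.ne_one
  have hk : padicValNat p n.factorial = k := by
    rw [he, padicValNat.mul (pow_ne_zero _ hp.ne_zero) (by rintro rfl; exact hm (dvd_zero p)),
      padicValNat.prime_pow, padicValNat.eq_zero_of_not_dvd hm, add_zero]
  have hm1 : A.valuation (m : ℚb) = 1 := by
    refine le_antisymm ((A.valuation_le_one_iff _).mpr (natCast_mem A m)) (not_lt.mp fun h => hm ?_)
    obtain ⟨c, d, hcd⟩ := Nat.isCoprime_iff_coprime.2 ((Nat.Prime.coprime_iff_not_dvd hp).2 hm)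
    have h1 := congrArg (Int.cast : ℤ → ℚb) hcd
    push_cast at h1
    have hint : ∀ z : ℤ, A.valuation (z : ℚb) ≤ 1 := fun z =>
      (A.valuation_le_one_iff _).mpr (intCast_mem A z)
    have h2 : A.valuation ((c : ℚb) * p + d * m) < 1 := by
      refine (A.valuation.map_add _ _).trans_lt (max_lt ?_ ?_) <;> rw [map_mul]
      · exact (mul_le_of_le_one_left' (hint c)).trans_lt (val_p_lt_one hA)
      · exact (mul_le_of_le_one_left' (hint d)).trans_lt h
    rw [h1, map_one] at h2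
    exact absurd h2 (lt_irrefl _)
  rw [hk, he, Nat.cast_mul, Nat.cast_pow, map_mul, map_pow, hm1, mul_one]

include hA in
theorem pow_le_val_factorial (n : ℕ) :
    A.valuation (p : ℚb) ^ (n - 1) ≤ A.valuation ((n.factorial : ℕ) : ℚb) ^ (p - 1) := by
  rw [val_factorial hA, ← pow_mul]
  refine pow_le_pow_right_of_le_one' (val_p_lt_one hA).le ?_
  rcases Nat.eq_zero_or_pos n with rfl | hn
  · simp
  rw [mul_comm, sub_one_mul_padicValNat_factorial]
  have h1 : 0 < (p.digits n).sum := by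
    have h2 := Nat.getLast_digit_ne_zero p hn.ne'
    have h3 : (p.digits n).getLast (Nat.digits_ne_nil_iff_ne_zero.mpr hn.ne') ≤ (p.digits n).sum :=
      List.le_sum_of_mem (List.getLast_mem _)
    omega
  omega

include hA in
theorem pow_le_val_factorial' (n : ℕ) :
    A.valuation (p : ℚb) ^ (n - 1) ≤ A.valuation ((n.factorial : ℕ) : ℚb) := by
  refine (pow_le_val_factorial hA n).trans ?_
  refine pow_le_of_le_one zero_le ?_ (Nat.sub_ne_zero_of_lt (Fact.out : p.Prime).one_lt)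
  exact (A.valuation_le_one_iff _).mpr (natCast_mem A _)

include hA in
theorem Small.pow_le_mul_factorial {γ : A.ValueGroup} (h : Small A p γ) {n : ℕ} (hn : 1 ≤ n) :
    γ ^ n ≤ γ * A.valuation ((n.factorial : ℕ) : ℚb) := by
  obtain ⟨m, rfl⟩ := Nat.exists_eq_add_of_le hn
  rw [add_comm, pow_succ']
  refine mul_le_mul' le_rfl ?_
  refine le_of_pow_le_pow_left₀ (Nat.sub_ne_zero_of_lt (Fact.out : p.Prime).one_lt) zero_le ?_
  rw [← pow_mul, mul_comm, pow_mul]
  refine (pow_le_pow_left₀ zero_le h.le _).trans ?_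
  have := pow_le_val_factorial hA (m + 1)
  rwa [Nat.add_sub_cancel] at this

include hA in
theorem mul_pow_le_mul_factorial {γ : A.ValueGroup} (hγ : γ ≤ 1) {n : ℕ} (hn : 2 ≤ n) :
    (A.valuation (p : ℚb) * γ) ^ n ≤
      A.valuation (p : ℚb) * γ ^ 2 * A.valuation ((n.factorial : ℕ) : ℚb) := by
  obtain ⟨m, rfl⟩ := Nat.exists_eq_add_of_le hn
  have h1 := pow_le_val_factorial' hA (2 + m)
  rw [show 2 + m - 1 = 1 + m by omega] at h1
  calc (A.valuation (p : ℚb) * γ) ^ (2 + m)
      = A.valuation (p : ℚb) * γ ^ 2 * (A.valuation (p : ℚb) ^ (1 + m) * γ ^ m) := by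
        rw [mul_pow, pow_add γ, show 2 + m = 1 + (1 + m) by omega, pow_add, pow_one]
        ac_rfl
    _ ≤ _ := mul_le_mul' le_rfl ((mul_le_of_le_one_right' (pow_le_one₀ zero_le hγ)).trans h1)

include hA in
theorem Small.exists_tail {γ ε : A.ValueGroup} (h : Small A p γ) (hε : ε ≠ 0) :
    ∃ N : ℕ, ∀ i j : ℕ, N ≤ i + j → γ ^ (i + j) ≤
      ε * (A.valuation ((i.factorial : ℕ) : ℚb) * A.valuation ((j.factorial : ℕ) : ℚb)) := by
  have hv0 : A.valuation (p : ℚb) ≠ 0 := val_p_ne_zero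
  have hp1 : p - 1 ≠ 0 := Nat.sub_ne_zero_of_lt (Fact.out : p.Prime).one_lt
  obtain ⟨N, hN⟩ := exists_pow_le hA (γ := γ ^ (p - 1) / A.valuation (p : ℚb))
    ((div_lt_one₀ (zero_lt_iff.mpr hv0)).mpr h) (pow_ne_zero (p - 1) hε)
  refine ⟨N, fun i j hij => le_of_pow_le_pow_left₀ hp1 zero_le ?_⟩
  rw [← pow_mul, mul_comm (i + j), pow_mul, mul_pow, mul_pow]
  calc (γ ^ (p - 1)) ^ (i + j)
      = (γ ^ (p - 1) / A.valuation (p : ℚb)) ^ (i + j) * A.valuation (p : ℚb) ^ (i + j) := by
        rw [← mul_pow, div_mul_cancel₀ _ hv0]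
    _ ≤ ε ^ (p - 1) * A.valuation (p : ℚb) ^ (i + j) := by
        refine mul_le_mul' ?_ le_rfl
        refine (pow_le_pow_right_of_le_one' ?_ hij).trans hN
        exact ((div_lt_one₀ (zero_lt_iff.mpr hv0)).mpr h).le
    _ ≤ _ := by
        refine mul_le_mul' le_rfl ?_
        refine (pow_le_pow_right_of_le_one' (val_p_lt_one hA).le
          (show (i - 1) + (j - 1) ≤ i + j by omega)).trans ?_
        rw [pow_add]
        exact mul_le_mul' (pow_le_val_factorial hA i) (pow_le_val_factorial hA j)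

/-! ## The series -/

variable {M : Type} [AddCommGroup M]

/-- The truncated exponential. -/
def expT (N : ℕ) (a : AddMonoidAlgebra ℚb M) : AddMonoidAlgebra ℚb M :=
  ∑ n ∈ Finset.range N, ((n.factorial : ℕ) : ℚb)⁻¹ • a ^ n

theorem expT_add (N : ℕ) (a b : AddMonoidAlgebra ℚb M) :
    expT N a * expT N b = expT N (a + b) + ∑ i ∈ Finset.range N, ∑ j ∈ Finset.Ico (N - i) N,
      (((i.factorial : ℕ) : ℚb)⁻¹ * ((j.factorial : ℕ) : ℚb)⁻¹) • (a ^ i * b ^ j) := by
  set f : ℕ → ℕ → AddMonoidAlgebra ℚb M := fun i j =>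
    (((i.factorial : ℕ) : ℚb)⁻¹ * ((j.factorial : ℕ) : ℚb)⁻¹) • (a ^ i * b ^ j) with hf
  have h1 : expT N (a + b) = ∑ i ∈ Finset.range N, ∑ j ∈ Finset.range (N - i), f i j := by
    rw [← Finset.sum_range_diag_flip, expT]
    refine Finset.sum_congr rfl fun n _ => ?_
    rw [(Commute.all a b).add_pow, Finset.smul_sum]
    refine Finset.sum_congr rfl fun i hi => ?_
    have hi' : i ≤ n := Nat.lt_succ_iff.mp (Finset.mem_range.mp hi)
    rw [hf, ← nsmul_eq_mul', ← Nat.cast_smul_eq_nsmul ℚb, smul_smul]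
    congr 1
    rw [Nat.cast_choose ℚb hi']
    have hn0 : ((n.factorial : ℕ) : ℚb) ≠ 0 := Nat.cast_ne_zero.mpr n.factorial_ne_zero
    field_simp
  rw [h1, expT, expT, Finset.sum_mul_sum, ← Finset.sum_add_distrib]
  refine Finset.sum_congr rfl fun i _ => ?_
  rw [Finset.sum_range_add_sum_Ico _ (Nat.sub_le N i)]
  exact Finset.sum_congr rfl fun j _ => smul_mul_smul_comm _ _ _ _

variable [Finite M] {L : CoordLat A M} {γ ε : A.ValueGroup} {a b : AddMonoidAlgebra ℚb M}

open CoordLat (InBall)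

theorem push_expT {N' : Type} [AddCommGroup N'] [Finite N'] (F : M →+ N') (N : ℕ) (a) :
    CoordLat.push F (expT N a) = expT N (CoordLat.push F a) := by
  simp only [expT, map_sum, CoordLat.push_smul, map_pow]

theorem InBall.factorial_smul (ha : L.InBall γ a) (n : ℕ)
    (h : γ ≤ ε * A.valuation ((n.factorial : ℕ) : ℚb)) :
    L.InBall ε (((n.factorial : ℕ) : ℚb)⁻¹ • a) := by
  refine (ha.smul _).mono ?_
  rw [map_inv₀, inv_mul_le_iff₀ (zero_lt_iff.mpr ((map_ne_zero _).mpr
    (Nat.cast_ne_zero.mpr n.factorial_ne_zero))), mul_comm]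
  exact h

include hA in
theorem expT_sub_one (hγ : Small A p γ) (ha : L.InBall γ a) {N : ℕ} (hN : 1 ≤ N) :
    L.InBall γ (expT N a - 1) := by
  rw [expT, Finset.range_eq_Ico, Finset.sum_eq_sum_Ico_succ_bot hN]
  simp only [Nat.factorial_zero, Nat.cast_one, inv_one, one_smul, pow_zero, zero_add,
    add_sub_cancel_left]
  refine InBall.sum _ fun n hn => InBall.factorial_smul (ha.pow n) n ?_
  exact hγ.pow_le_mul_factorial hA (Finset.mem_Ico.mp hn).1

include hA in
theorem expT_inBall_one (hγ : Small A p γ) (ha : L.InBall γ a) {N : ℕ} (hN : 1 ≤ N) :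
    L.InBall 1 (expT N a) := by
  have h := ((expT_sub_one hA hγ ha hN).mono (hγ.le_one hA)).add CoordLat.inBall_one
  rwa [sub_add_cancel] at h

include hA in
theorem expT_sub_linear (hγ : γ ≤ 1) (ha : L.InBall (A.valuation (p : ℚb) * γ) a) {N : ℕ}
    (hN : 2 ≤ N) :
    L.InBall (A.valuation (p : ℚb) * γ ^ 2) (expT N a - 1 - a) := by
  rw [expT, Finset.range_eq_Ico, Finset.sum_eq_sum_Ico_succ_bot (by omega : 0 < N),
    Finset.sum_eq_sum_Ico_succ_bot (by omega : 0 + 1 < N)]
  simp only [Nat.factorial_zero, Nat.cast_one, inv_one, one_smul, pow_zero, zero_add, pow_one,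
    Nat.factorial_one, add_sub_cancel_left]
  refine InBall.sum _ fun n hn => InBall.factorial_smul (ha.pow n) n ?_
  exact mul_pow_le_mul_factorial hA hγ (Finset.mem_Ico.mp hn).1

theorem expT_mul (ha : L.InBall γ a) (hb : L.InBall γ b) {N : ℕ}
    (hN : ∀ i j : ℕ, N ≤ i + j → γ ^ (i + j) ≤
      ε * (A.valuation ((i.factorial : ℕ) : ℚb) * A.valuation ((j.factorial : ℕ) : ℚb))) :
    L.InBall ε (expT N a * expT N b - expT N (a + b)) := by
  rw [expT_add, add_sub_cancel_left]
  refine InBall.sum _ fun i _ => InBall.sum _ fun j hj => ?_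
  have h := hN i j (by have := (Finset.mem_Ico.mp hj).1; omega)
  refine (((ha.pow i).mul (hb.pow j)).smul _).mono ?_
  rw [map_mul, map_inv₀, map_inv₀, ← mul_inv, ← pow_add, inv_mul_le_iff₀ (zero_lt_iff.mpr
    (mul_ne_zero ((map_ne_zero _).mpr (Nat.cast_ne_zero.mpr i.factorial_ne_zero))
      ((map_ne_zero _).mpr (Nat.cast_ne_zero.mpr j.factorial_ne_zero)))), mul_comm]
  exact h

end Fermat.Agent.FlatBound
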