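/-
The lattice of integral functions of a finite flat model, with a basis of equivariant functions.
-/
import Fermat.Agent.FlatBound.Lift.Lat
import Fermat.Agent.MCurve.Flat.Closure

set_option autoImplicit false
set_option linter.unusedSectionVars false
set_option linter.style.haveILetI false

noncomputable section

namespace Fermat.Agent.FlatBound

open Fermat.Agent.Galois (GQ)
open Fermat.Agent.MCurve Fermat.Agent.MCurve.Flat

local notation "ℚb" => AlgebraicClosure ℚ

/-- A finite flat model gives a lattice of functions with a Galois equivariant basis. -/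
theorem exists_coordLat {p : ℕ} [Fact p.Prime] {A : ValuationSubring (AlgebraicClosure ℚ)}
    (hA : A.LiesOverPrime p) {M : Type} [AddCommGroup M] [DistribMulAction GQ M] [Finite M]
    (h : HasFlatModel M p) :
    ∃ (L : CoordLat A M) (ι : Type) (_ : Fintype ι) (B : Module.Basis ι ℚb (M → ℚb)),
      (∀ i, B i ∈ L.S) ∧ (∀ (σ : GQ) (i : ι) (x : M), σ (B i x) = B i (σ • x)) ∧
      (∀ f ∈ L.S, f ∈ Submodule.span A (Set.range B)) := by
  obtain ⟨C⟩ := exists_intCoords_of_hasFlatModel h hA
  obtain ⟨ι, hι, k, B, hB⟩ := exists_basis hA C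
  obtain ⟨N, hN⟩ := exists_pointFun_mem C (Fact.out : p.Prime) hA
  haveI := Fintype.ofFinite M
  classical
  let L : CoordLat A M :=
    { S := coordAlg C
      int := fun f hf x => apply_mem_of_mem C hf x
      add := fun f hf => by
        have h1 := flipAll_mem_boxAlg hA C (neg_mem_coordAlg hA C hf)
        simp only [neg_neg] at h1
        refine Submodule.span_mono ?_ h1
        rintro F ⟨a, ha, b, hb, rfl⟩
        exact ⟨a, ha.1, b, hb.1, rfl⟩
      exists_scale := by
        refine ⟨(p : ℚb) ^ N, pow_ne_zero _ (Nat.cast_ne_zero.mpr (Fact.out : p.Prime).ne_zero),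
          fun e he => ?_⟩
        have h1 : (p : ℚb) ^ N • e = ∑ x : M, (⟨e x, he x⟩ : A) • pointFun (ℓ := p) N x := by
          funext y
          rw [Finset.sum_apply, Finset.sum_eq_single y (fun x _ hx => by
            simp [pointFun, Pi.single_apply, Ne.symm hx]) (by simp)]
          simp [pointFun, Algebra.smul_def]
          ring
        rw [h1]
        exact sum_mem fun x _ => (coordAlg C).smul_mem (hN x) _ }
  refine ⟨L, ι, hι, B, fun i => by rw [hB]; exact (k i).2.1, fun σ i x => ?_, fun f hf => ?_⟩
  · rw [hB]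
    exact ((k i).2.2.apply σ x).symm
  · refine Submodule.span_le.mpr ?_ (coordAlg_le_span C (Fact.out : p.Prime) hA hf)
    intro g hg
    have h1 := congrArg (fun u : equivAlg hA C => (u : M → ℚb)) (k.sum_repr ⟨g, hg⟩)
    simp only [AddSubmonoidClass.coe_finsetSum] at h1
    rw [SetLike.mem_coe, ← h1]
    refine sum_mem fun i _ => ?_
    have h2 : (((k.repr ⟨g, hg⟩ i) • k i : equivAlg hA C) : M → ℚb) =
        (⟨algebraMap (Rl p) ℚb (k.repr ⟨g, hg⟩ i),
          by rw [algebraMap_Rl_apply]; exact algebraMap_mem_place A hA _⟩ : A) • B i := by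
      funext x
      rw [hB, SetLike.val_smul, Pi.smul_apply, Pi.smul_apply, Algebra.smul_def, Algebra.smul_def]
      rfl
    rw [h2]
    exact Submodule.smul_mem _ _ (Submodule.subset_span ⟨i, rfl⟩)

end Fermat.Agent.FlatBound
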