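/-
Approximate points of a finite flat group killed by `p` lift uniquely.
-/
import Fermat.Agent.FlatBound.Lift.Exp

set_option autoImplicit false
set_option linter.unusedSectionVars false
set_option linter.style.haveILetI false

noncomputable section

namespace Fermat.Agent.FlatBound

open AddMonoidAlgebra CoordLat

local notation "ℚb" => AlgebraicClosure ℚ

variable {A : ValuationSubring (AlgebraicClosure ℚ)} {p : ℕ} [Fact p.Prime]
  {M : Type} [AddCommGroup M] [Finite M]

local notation "e₁" => AddMonoidHom.inl M M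
local notation "e₂" => AddMonoidHom.inr M M

/-- The failure of an element of the group algebra to be multiplicative on functions. -/
def defect (u : AddMonoidAlgebra ℚb M) : AddMonoidAlgebra ℚb (M × M) :=
  push (e₁ + e₂) u - push e₁ u * push e₂ u

/-- A point up to `γ`. -/
structure IsApprox (L : CoordLat A M) (γ : A.ValueGroup) (u : AddMonoidAlgebra ℚb M) : Prop where
  ball : L.InBall 1 u
  defect_le : (L.prod L).InBall γ (defect u)
  one_near : A.valuation (pairing (fun _ => 1) u - 1) < 1

/-- The map out of `M × M` given by two maps out of `M`. -/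
def pairHom {N : Type} [AddCommGroup N] (a b : M →+ N) : M × M →+ N :=
  a.comp (AddMonoidHom.fst M M) + b.comp (AddMonoidHom.snd M M)

@[simp]
theorem pairHom_apply {N : Type} [AddCommGroup N] (a b : M →+ N) (z : M × M) :
    pairHom a b z = a z.1 + b z.2 := rfl

theorem pairHom_comp {N N' : Type} [AddCommGroup N] [AddCommGroup N'] (F : N →+ N') (a b : M →+ N) :
    F.comp (pairHom a b) = pairHom (F.comp a) (F.comp b) :=
  AddMonoidHom.ext fun z => by simp

theorem pairHom_inl_inr : pairHom e₁ e₂ = AddMonoidHom.id (M × M) :=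
  AddMonoidHom.ext fun z => by simp

variable {L : CoordLat A M}

theorem isHom_inl : L.IsHom (L.prod L) e₁ := isHom_id.prodMk isHom_zero

theorem isHom_inr : L.IsHom (L.prod L) e₂ := isHom_zero.prodMk isHom_id

theorem isHom_pair {N : Type} [AddCommGroup N] [Finite N] {L' : CoordLat A N} {a b : M →+ N}
    (ha : L.IsHom L' a) (hb : L.IsHom L' b) : (L.prod L).IsHom L' (pairHom a b) :=
  (ha.comp isHom_fst).add' (hb.comp isHom_snd)

theorem pairHom_comp_inl {N : Type} [AddCommGroup N] (a b : M →+ N) : (pairHom a b).comp e₁ = a :=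
  AddMonoidHom.ext fun x => by simp

theorem pairHom_comp_inr {N : Type} [AddCommGroup N] (a b : M →+ N) : (pairHom a b).comp e₂ = b :=
  AddMonoidHom.ext fun x => by simp

theorem push_pair_defect {N : Type} [AddCommGroup N] (a b : M →+ N) (u : AddMonoidAlgebra ℚb M) :
    push (pairHom a b) (defect u) = push (a + b) u - push a u * push b u := by
  rw [defect, map_sub, map_mul, push_push, push_push, push_push, AddMonoidHom.comp_add,
    pairHom_comp_inl, pairHom_comp_inr]

theorem push_zero_hom {N : Type} [AddCommGroup N] (u : AddMonoidAlgebra ℚb M) :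
    push (0 : M →+ N) u = pairing (fun _ => 1) u • 1 := by
  induction u using AddMonoidAlgebra.induction_linear with
  | zero => simp
  | add a b ha hb => simp only [map_add, ha, hb, add_smul]
  | single x r => simp [one_def, smul_single']

theorem eq_sum_single [Fintype M] [DecidableEq M] (u : AddMonoidAlgebra ℚb M) :
    u = ∑ x, single x (pairing (fun y => if y = x then 1 else 0) u) := by
  induction u using AddMonoidAlgebra.induction_linear with
  | zero => simp
  | add a b ha hb =>
    simp only [map_add, single_add, Finset.sum_add_distrib]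
    rw [← ha, ← hb]
  | single y r =>
    rw [Finset.sum_eq_single y (fun x _ hx => by simp [Ne.symm hx]) (by simp)]
    simp

variable (hA : A.LiesOverPrime p)

/-- The augmentation of an approximate point is near `1` to the same precision. -/
theorem IsApprox.one_le {γ : A.ValueGroup} {u : AddMonoidAlgebra ℚb M} (hu : IsApprox L γ u) :
    A.valuation (pairing (fun _ => 1) u - 1) ≤ γ := by
  set e := pairing (fun _ => 1) u with he
  have h := hu.defect_le (fun _ => 1) (one_mem (L.prod L).S)
  have h1 : pairing (fun _ : M × M => (1 : ℚb)) (defect u) = e - e * e := by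
    rw [defect, map_sub, pairing_push]
    congr 1
    have := pairing_box (fun _ : M => (1 : ℚb)) (fun _ : M => (1 : ℚb)) u u
    simpa using this
  rw [h1] at h
  have hv : A.valuation e = 1 := by
    have := A.valuation.map_one_add_of_lt hu.one_near
    rwa [add_sub_cancel] at this
  rwa [show e - e * e = -(e * (e - 1)) by ring, Valuation.map_neg, map_mul, hv, one_mul] at h

include hA in
/-- One step of the approximation. -/
theorem exists_approx_step (hp : ∀ x : M, p • x = 0) {γ : A.ValueGroup} (hγ : Small A p γ)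
    (hγ0 : γ ≠ 0) {u : AddMonoidAlgebra ℚb M}
    (hu : IsApprox L (A.valuation (p : ℚb) * γ) u) :
    ∃ u', IsApprox L (A.valuation (p : ℚb) * γ ^ 2) u' ∧ L.InBall γ (u' - u) := by
  set vp := A.valuation (p : ℚb) with hvp
  have hvp1 : vp ≤ 1 := (val_p_lt_one hA).le
  have hγ1 : γ ≤ 1 := hγ.le_one hA
  have hpγ : vp * γ ≤ γ := mul_le_of_le_one_left' hvp1
  have hsq : vp * γ * (vp * γ) ≤ vp * γ ^ 2 := by
    rw [sq, mul_mul_mul_comm]
    exact mul_le_mul' (mul_le_of_le_one_left' hvp1) le_rfl
  have hsmall : ∀ {x : A.ValueGroup}, x ≤ vp * γ → x ≤ γ := fun h => h.trans hpγ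
  set L₂ := L.prod L with hL₂
  set L₃ := L.prod L₂ with hL₃
  -- the inverse
  let nid : M →+ M := -AddMonoidHom.id M
  have hnid : L.IsHom L nid := by
    have h : nid = (p - 1) • AddMonoidHom.id M := AddMonoidHom.ext fun x => by
      show -x = (p - 1) • x
      refine neg_eq_of_add_eq_zero_right ?_
      rw [← succ_nsmul', Nat.sub_add_cancel (Fact.out : p.Prime).one_le, hp]
    rw [h]
    exact isHom_id.nsmul _
  set v := push nid u with hv
  have hvball : L.InBall 1 v := hu.ball.push hnid
  have huv : L.InBall (vp * γ) (u * v - 1) := by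
    have h : push (pairHom (AddMonoidHom.id M) nid) (defect u) =
        pairing (fun _ => 1) u • (1 : AddMonoidAlgebra ℚb M) - u * v := by
      rw [push_pair_defect, show AddMonoidHom.id M + nid = 0 from AddMonoidHom.ext fun x => by simp [nid],
        push_zero_hom, hv]
      congr 2
      exact congrFun (congrArg DFunLike.coe (show push (AddMonoidHom.id M) = RingHom.id _ from
        mapDomainRingHom_id)) u
    have h2 : u * v - 1 = (pairing (fun _ => 1) u - 1) • (1 : AddMonoidAlgebra ℚb M) -
        push (pairHom (AddMonoidHom.id M) nid) (defect u) := by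
      rw [h, sub_smul, one_smul]; abel
    rw [h2]
    refine InBall.sub ?_ (hu.defect_le.push (isHom_pair isHom_id hnid))
    refine (CoordLat.inBall_one.smul _).mono ?_
    rw [mul_one]
    exact hu.one_le
  set z := push e₁ v * push e₂ v * defect u with hz
  have hzball : L₂.InBall (vp * γ) z := by
    have := ((hvball.push isHom_inl).mul (hvball.push isHom_inr)).mul hu.defect_le
    simpa using this
  have hzu : L₂.InBall (vp * γ ^ 2) (push e₁ u * push e₂ u * z - defect u) := by
    have h : push e₁ u * push e₂ u * z - defect u =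
        (push e₁ (u * v - 1) * push e₂ (u * v) + push e₂ (u * v - 1)) * defect u := by
      rw [hz]; simp only [map_mul, map_sub, map_one]; ring
    rw [h]
    refine ((InBall.add ?_ (huv.push isHom_inr)).mul hu.defect_le).mono hsq
    have h1 : L.InBall 1 (u * v) := by simpa using hu.ball.mul hvball
    simpa using (huv.push isHom_inl).mul (h1.push isHom_inr)
  -- the cocycle identity
  let j₁ : M →+ M × (M × M) := AddMonoidHom.inl M (M × M)
  let j₂ : M →+ M × (M × M) := (AddMonoidHom.inr M (M × M)).comp e₁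
  let j₃ : M →+ M × (M × M) := (AddMonoidHom.inr M (M × M)).comp e₂
  have hinr : L₂.IsHom L₃ (AddMonoidHom.inr M (M × M)) := isHom_zero.prodMk isHom_id
  have hj₁ : L.IsHom L₃ j₁ := isHom_id.prodMk isHom_zero
  have hj₂ : L.IsHom L₃ j₂ := hinr.comp isHom_inl
  have hj₃ : L.IsHom L₃ j₃ := hinr.comp isHom_inr
  have hzp : ∀ {a b : M →+ M × (M × M)}, L.IsHom L₃ a → L.IsHom L₃ b →
      L₃.InBall (vp * γ) (push (pairHom a b) z) := fun ha hb => hzball.push (isHom_pair ha hb)
  have hcoc : L₃.InBall (vp * γ * (vp * γ)) (push (pairHom (j₁ + j₂) j₃) z + push (pairHom j₁ j₂) z -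
      push (pairHom j₁ (j₂ + j₃)) z - push (pairHom j₂ j₃) z) := by
    set D := defect u
    set V₁ := push j₁ v; set V₂ := push j₂ v; set V₃ := push j₃ v
    set U₁ := push j₁ u; set U₃ := push j₃ u
    have hid : push (pairHom (j₁ + j₂) j₃) D + push (pairHom j₁ j₂) D * U₃ =
        push (pairHom j₁ (j₂ + j₃)) D + push (pairHom j₂ j₃) D * U₁ := by
      simp only [D, U₁, U₃, push_pair_defect, add_assoc]
      ring
    have hzexp : ∀ a b : M →+ M × (M × M),
        push (pairHom a b) z = push a v * push b v * push (pairHom a b) D := fun a b => by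
      simp only [hz, map_mul, push_push, pairHom_comp_inl, pairHom_comp_inr, D]
    have hDv : ∀ a b : M →+ M × (M × M), L.IsHom L₃ a → L.IsHom L₃ b →
        L₃.InBall (vp * γ) (push (a + b) v - push a v * push b v) := fun a b ha hb => by
      have h := hu.defect_le.push (isHom_pair (L' := L₃) (ha.comp hnid) (hb.comp hnid))
      rw [push_pair_defect] at h
      rwa [hv, push_push, push_push, push_push, AddMonoidHom.add_comp]
    have hball : ∀ {a : M →+ M × (M × M)}, L.IsHom L₃ a → L₃.InBall 1 (push a v) :=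
      fun ha => hvball.push ha
    have hDp : ∀ {a b : M →+ M × (M × M)}, L.IsHom L₃ a → L.IsHom L₃ b →
        L₃.InBall (vp * γ) (push (pairHom a b) D) := fun ha hb =>
      hu.defect_le.push (isHom_pair ha hb)
    have key : push (pairHom (j₁ + j₂) j₃) z + push (pairHom j₁ j₂) z -
        push (pairHom j₁ (j₂ + j₃)) z - push (pairHom j₂ j₃) z =
        (push (j₁ + j₂) v - V₁ * V₂) * (V₃ * push (pairHom (j₁ + j₂) j₃) D) -
        (push (j₂ + j₃) v - V₂ * V₃) * (V₁ * push (pairHom j₁ (j₂ + j₃)) D) -
        push j₃ (u * v - 1) * (V₁ * V₂ * push (pairHom j₁ j₂) D) +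
        push j₁ (u * v - 1) * (V₂ * V₃ * push (pairHom j₂ j₃) D) := by
      rw [hzexp, hzexp, hzexp, hzexp, map_sub, map_sub, map_mul, map_mul, map_one, map_one]
      linear_combination (V₁ * V₂ * V₃) * hid
    rw [key]
    have hb1 : ∀ {x y : AddMonoidAlgebra ℚb (M × (M × M))}, L₃.InBall 1 x →
        L₃.InBall (vp * γ) y → L₃.InBall (vp * γ) (x * y) := fun hx hy => by
      simpa using hx.mul hy
    refine InBall.add (InBall.sub (InBall.sub ?_ ?_) ?_) ?_
    · exact (hDv _ _ hj₁ hj₂).mul (hb1 (hball hj₃) (hDp (hj₁.add' hj₂) hj₃))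
    · exact (hDv _ _ hj₂ hj₃).mul (hb1 (hball hj₁) (hDp hj₁ (hj₂.add' hj₃)))
    · exact (huv.push hj₃).mul (hb1 (by simpa using (hball hj₁).mul (hball hj₂)) (hDp hj₁ hj₂))
    · exact (huv.push hj₁).mul (hb1 (by simpa using (hball hj₂).mul (hball hj₃)) (hDp hj₂ hj₃))
  -- division by `p`
  have hp0 : (p : ℚb) ≠ 0 := Nat.cast_ne_zero.mpr (Fact.out : p.Prime).ne_zero
  have hvp0 : vp ≠ 0 := val_p_ne_zero
  set z₀ := (p : ℚb)⁻¹ • z with hz₀
  have hz₀ball : L₂.InBall γ z₀ := (hzball.smul _).mono (by
    rw [map_inv₀, ← hvp, inv_mul_cancel_left₀ hvp0])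
  let Z : (M →+ M × M) → (M →+ M × M) → AddMonoidAlgebra ℚb (M × M) :=
    fun a b => push (pairHom a b) z₀
  have hsym : ∀ a b, Z a b = Z b a := fun a b => by
    simp only [Z, hz₀, push_smul, hz, map_mul, push_push, pairHom_comp_inl, pairHom_comp_inr,
      push_pair_defect, add_comm a b]
    ring_nf
  have hd : ∀ {a b c : M →+ M × M}, L.IsHom L₂ a → L.IsHom L₂ b → L.IsHom L₂ c →
      L₂.InBall (vp * γ ^ 2) (Z (a + b) c + Z a b - Z a (b + c) - Z b c) := by
    intro a b c ha hb hc
    set F : M × (M × M) →+ M × M := a.comp (AddMonoidHom.fst M (M × M)) +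
      (pairHom b c).comp (AddMonoidHom.snd M (M × M)) with hF
    have hFhom : L₃.IsHom L₂ F := (ha.comp isHom_fst).add' ((isHom_pair hb hc).comp isHom_snd)
    have hF1 : F.comp j₁ = a := AddMonoidHom.ext fun x => by simp [hF, j₁]
    have hF2 : F.comp j₂ = b := AddMonoidHom.ext fun x => by simp [hF, j₂]
    have hF3 : F.comp j₃ = c := AddMonoidHom.ext fun x => by simp [hF, j₃]
    have h := ((hcoc.push hFhom).smul (p : ℚb)⁻¹).mono (δ := vp * γ ^ 2) (by
      rw [map_inv₀, ← hvp, mul_assoc, inv_mul_cancel_left₀ hvp0, mul_left_comm, sq])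
    simp only [Z, hz₀, push_smul, ← smul_add, ← smul_sub]
    simp only [map_add, map_sub, push_push, pairHom_comp, AddMonoidHom.comp_add, hF1, hF2, hF3] at h
    exact h
  have hfour : ∀ {a b c d : M →+ M × M}, L.IsHom L₂ a → L.IsHom L₂ b → L.IsHom L₂ c →
      L.IsHom L₂ d → L₂.InBall (vp * γ ^ 2)
        ((Z a b + Z c d - Z (a + c) (b + d)) - (Z a c + Z b d - Z (a + b) (c + d))) := by
    intro a b c d ha hb hc hd'
    have h := ((hd ha hb (hc.add' hd')).sub (hd ha hc (hb.add' hd'))).sub
      ((hd hb hc hd').sub (hd hc hb hd'))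
    convert h using 1
    rw [show b + (c + d) = c + (b + d) by abel, hsym b c, add_comm c b]
    abel
  have hn₁ : ∀ n : ℕ, L.IsHom L₂ (n • e₁) := isHom_inl.nsmul
  have hn₂ : ∀ n : ℕ, L.IsHom L₂ (n • e₂) := isHom_inr.nsmul
  set s := ∑ j ∈ Finset.range p, push (pairHom (j • AddMonoidHom.id M) (AddMonoidHom.id M)) z₀
    with hs
  have hsball : L.InBall γ s :=
    InBall.sum _ fun j _ => hz₀ball.push (isHom_pair (isHom_id.nsmul j) isHom_id)
  set δs := push e₁ s + push e₂ s - push (e₁ + e₂) s with hδs
  have hδs' : L₂.InBall (vp * γ ^ 2) (δs - z) := by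
    have hterm : ∀ (j : ℕ) (F : M →+ M × M),
        push F (push (pairHom (j • AddMonoidHom.id M) (AddMonoidHom.id M)) z₀) = Z (j • F) F :=
      fun j F => by
        rw [push_push, pairHom_comp]
        have hj : F.comp (j • AddMonoidHom.id M) = j • F := AddMonoidHom.ext fun x => by
          simp [map_nsmul]
        rw [hj, AddMonoidHom.comp_id]
    have hp' : ∀ F : M →+ M × M, p • F = 0 := fun F => AddMonoidHom.ext fun x => by
      rw [AddMonoidHom.smul_apply, ← map_nsmul, hp, map_zero, AddMonoidHom.zero_apply]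
    have hz1 : (p : ℚb) • Z e₁ e₂ = z := by
      simp only [Z, hz₀, pairHom_inl_inr, push_smul, smul_smul, mul_inv_cancel₀ hp0, one_smul]
      exact congrFun (congrArg DFunLike.coe (show push (AddMonoidHom.id (M × M)) = RingHom.id _ from
        mapDomainRingHom_id)) z
    have htel : δs - z = ∑ j ∈ Finset.range p,
        ((Z (j • e₁) e₁ + Z (j • e₂) e₂ - Z (j • e₁ + j • e₂) (e₁ + e₂)) -
          (Z (j • e₁) (j • e₂) + Z e₁ e₂ - Z ((j + 1) • e₁) ((j + 1) • e₂))) := by
      rw [Finset.sum_sub_distrib, hδs, hs]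
      simp only [map_sum, hterm, ← Finset.sum_add_distrib, ← Finset.sum_sub_distrib, smul_add]
      rw [Finset.sum_sub_distrib _ (fun j => Z (j • e₁) (j • e₂) + Z e₁ e₂ -
        Z ((j + 1) • e₁) ((j + 1) • e₂))]
      congr 1
      have h0 := Finset.sum_range_sub' (fun j => Z (j • e₁) (j • e₂)) p
      simp only [hp', zero_nsmul, sub_self] at h0
      rw [show (fun j => Z (j • e₁) (j • e₂) + Z e₁ e₂ - Z ((j + 1) • e₁) ((j + 1) • e₂)) =
        fun j => (Z (j • e₁) (j • e₂) - Z ((j + 1) • e₁) ((j + 1) • e₂)) + Z e₁ e₂ from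
          funext fun j => by abel, Finset.sum_add_distrib, h0, zero_add, Finset.sum_const,
        Finset.card_range, ← Nat.cast_smul_eq_nsmul ℚb, hz1]
    rw [htel]
    refine InBall.sum _ fun j _ => ?_
    have h := hfour (hn₁ j) isHom_inl (hn₂ j) isHom_inr
    rwa [← succ_nsmul, ← succ_nsmul] at h
  -- the new approximation
  obtain ⟨N₀, hN₀⟩ := hγ.exists_tail hA (ε := vp * γ ^ 2) (mul_ne_zero hvp0 (pow_ne_zero _ hγ0))
  set N := max N₀ 2
  have hN1 : 1 ≤ N := le_trans one_le_two (le_max_right _ _)
  have hN : ∀ i j : ℕ, N ≤ i + j → γ ^ (i + j) ≤ vp * γ ^ 2 *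
      (A.valuation ((i.factorial : ℕ) : ℚb) * A.valuation ((j.factorial : ℕ) : ℚb)) :=
    fun i j h => hN₀ i j ((le_max_left _ _).trans h)
  have hE : L.InBall γ (expT N s - 1) := expT_sub_one hA hγ hsball hN1
  refine ⟨u * expT N s, ⟨?_, ?_, ?_⟩, ?_⟩
  · simpa using hu.ball.mul (expT_inBall_one hA hγ hsball hN1)
  · set U := push e₁ u * push e₂ u
    have hUball : L₂.InBall 1 U := by
      simpa using (hu.ball.push isHom_inl).mul (hu.ball.push isHom_inr)
    have hs₁ : L₂.InBall γ (push e₁ s) := hsball.push isHom_inl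
    have hs₂ : L₂.InBall γ (push e₂ s) := hsball.push isHom_inr
    have hΔs : L₂.InBall γ (push (e₁ + e₂) s) := hsball.push (isHom_inl.add' isHom_inr)
    have hδball : L₂.InBall (vp * γ) δs := by
      have h := (hδs'.mono (mul_le_mul' le_rfl (by
        rw [sq]; exact mul_le_of_le_one_left' hγ1))).add hzball
      rwa [sub_add_cancel] at h
    have key : defect (u * expT N s) =
        (defect u - U * z) * expT N (push (e₁ + e₂) s) +
        U * expT N (push (e₁ + e₂) s) * (z - δs - (expT N δs - 1 - δs)) +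
        U * (expT N (push (e₁ + e₂) s) * expT N δs - expT N (push (e₁ + e₂) s + δs)) -
        U * (expT N (push e₁ s) * expT N (push e₂ s) - expT N (push e₁ s + push e₂ s)) := by
      rw [show push (e₁ + e₂) s + δs = push e₁ s + push e₂ s by rw [hδs]; abel]
      simp only [defect, map_mul, push_expT, U]
      ring
    rw [key]
    refine InBall.sub (InBall.add (InBall.add ?_ ?_) ?_) ?_
    · have h := (hzu.neg).mul (expT_inBall_one hA hγ hΔs hN1)
      rwa [mul_one, neg_sub] at h
    · have h := (hUball.mul (expT_inBall_one hA hγ hΔs hN1)).mul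
        ((hδs'.neg).sub (expT_sub_linear hA hγ1 hδball (N := N) (le_max_right _ _)))
      rwa [one_mul, one_mul, neg_sub] at h
    · simpa using hUball.mul (expT_mul hΔs (hδball.mono hpγ) hN)
    · simpa using hUball.mul (expT_mul hs₁ hs₂ hN)
  · have h := (hu.ball.mul hE) (fun _ => 1) (one_mem L.S)
    rw [one_mul, mul_sub, mul_one, map_sub] at h
    rw [show pairing (fun _ => 1) (u * expT N s) - 1 =
      (pairing (fun _ => 1) (u * expT N s) - pairing (fun _ => 1) u) +
        (pairing (fun _ => 1) u - 1) by ring]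
    exact (A.valuation.map_add _ _).trans_lt (max_lt (h.trans_lt (hγ.lt_one hA)) hu.one_near)
  · have h := hu.ball.mul hE
    rwa [one_mul, mul_sub, mul_one] at h

include hA in
/-- An approximate point is near a point. -/
theorem exists_point (hp : ∀ x : M, p • x = 0) {γ : A.ValueGroup} (hγ : Small A p γ) (hγ0 : γ ≠ 0)
    {u : AddMonoidAlgebra ℚb M} (hu : IsApprox L (A.valuation (p : ℚb) * γ) u) :
    ∃ x : M, L.InBall γ (u - single x 1) := by
  classical
  haveI := Fintype.ofFinite M
  obtain ⟨δ, hδ0, hδ⟩ := L.exists_scale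
  have hvδ : A.valuation δ ≠ 0 := (map_ne_zero _).mpr hδ0
  have hγlt := hγ.lt_one hA
  -- iterate
  have hiter : ∀ m : ℕ, ∃ u', IsApprox L (A.valuation (p : ℚb) * γ ^ 2 ^ m) u' ∧
      L.InBall γ (u' - u) := by
    intro m
    induction m with
    | zero => exact ⟨u, by simpa using hu, by rw [sub_self]; exact InBall.zero L γ⟩
    | succ m ih =>
      obtain ⟨u', hu', hd⟩ := ih
      have hle : γ ^ 2 ^ m ≤ γ := pow_le_of_le_one zero_le hγlt.le (by positivity)
      obtain ⟨u'', hu'', hd'⟩ := exists_approx_step hA hp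
        (lt_of_le_of_lt (pow_le_pow_left₀ zero_le hle _) hγ) (pow_ne_zero _ hγ0) hu'
      refine ⟨u'', by rwa [← pow_mul, ← pow_succ] at hu'', ?_⟩
      have h := (hd'.mono hle).add hd
      rwa [sub_add_sub_cancel] at h
  -- high precision
  obtain ⟨N, hN⟩ := exists_pow_le hA hγlt (ε := γ * (A.valuation δ * A.valuation δ))
    (mul_ne_zero hγ0 (mul_ne_zero hvδ hvδ))
  obtain ⟨u', hu', hd⟩ := hiter N
  set η := A.valuation (p : ℚb) * γ with hη
  have hη1 : η < 1 := (mul_le_of_le_one_right' hγlt.le).trans_lt (val_p_lt_one hA)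
  have hprec : A.valuation (p : ℚb) * γ ^ 2 ^ N ≤ η * (A.valuation δ * A.valuation δ) := by
    rw [hη, mul_assoc]
    refine mul_le_mul' le_rfl ((pow_le_pow_right_of_le_one' hγlt.le ?_).trans hN)
    exact N.lt_two_pow_self.le
  let ind : M → M → ℚb := fun x y => if y = x then 1 else 0
  set co : M → ℚb := fun x => pairing (ind x) u' with hco
  have hind : ∀ x, δ • ind x ∈ L.S := fun x => hδ _ fun y => by
    by_cases h : y = x
    · simp only [ind, if_pos h]; exact one_mem A
    · simp only [ind, if_neg h]; exact zero_mem A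
  have hrel : ∀ x y, A.valuation ((if x = y then co x else 0) - co x * co y) ≤ η := by
    intro x y
    have h := hu'.defect_le (fun z => (δ • ind x) z.1 * (δ • ind y) z.2)
      (mul_mem (fst_mem (hind x)) (snd_mem (hind y)))
    rw [defect, map_sub, pairing_box, pairing_push, pairing_smul_left, pairing_smul_left] at h
    have hdiag : (fun z : M => (δ • ind x) ((e₁ + e₂ : M →+ M × M) z).1 *
        (δ • ind y) ((e₁ + e₂ : M →+ M × M) z).2) =
        (δ * δ * if x = y then 1 else 0) • ind x := funext fun z => by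
      by_cases hxy : x = y <;> by_cases hz : z = x <;> simp [ind, hxy, hz]
      all_goals aesop
    rw [hdiag, pairing_smul_left, show δ * δ * (if x = y then (1 : ℚb) else 0) * co x -
        δ * co x * (δ * co y) = δ * δ * ((if x = y then co x else 0) - co x * co y) by
      split_ifs <;> ring, map_mul, map_mul] at h
    have h2 := h.trans hprec
    rw [mul_comm η] at h2
    exact le_of_mul_le_mul_left h2 (zero_lt_iff.mpr (mul_ne_zero hvδ hvδ))
  have hdec : u' = ∑ x, single x (co x) := by
    exact eq_sum_single u'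
  have hsum : pairing (fun _ => 1) u' = ∑ x, co x := by
    conv_lhs => rw [hdec]
    simp
  have hbig : ∃ x, 1 ≤ A.valuation (co x) := by
    by_contra hc
    push Not at hc
    have h1 : A.valuation (pairing (fun _ => 1) u') < 1 := by
      rw [hsum]
      exact A.valuation.map_sum_lt one_ne_zero fun x _ => hc x
    have h2 := A.valuation.map_sub_eq_of_lt_left (x := (1 : ℚb))
      (y := pairing (fun _ => 1) u') (by rwa [map_one])
    rw [map_one, Valuation.map_sub_swap] at h2
    exact absurd h2 hu'.one_near.ne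
  obtain ⟨x, hx⟩ := hbig
  have hxx := hrel x x
  rw [if_pos rfl, show co x - co x * co x = co x * (1 - co x) by ring, map_mul] at hxx
  have hx1 : A.valuation (co x) = 1 := by
    refine le_antisymm (not_lt.mp fun hgt => ?_) hx
    have h2 : A.valuation (1 - co x) = A.valuation (co x) :=
      A.valuation.map_sub_eq_of_lt_right (by rwa [map_one])
    rw [h2] at hxx
    exact absurd ((one_le_mul hx hx).trans hxx) (not_le.mpr hη1)
  rw [hx1, one_mul] at hxx
  refine ⟨x, ?_⟩
  have hnear : L.InBall η (u' - single x 1) := by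
    conv => arg 3; rw [hdec, ← Finset.sum_erase_add _ _ (Finset.mem_univ x), add_sub_assoc, ← single_sub]
    refine InBall.add (InBall.sum _ fun y hy => CoordLat.inBall_single.mono ?_)
      (CoordLat.inBall_single.mono ((Valuation.map_sub_swap _ _ _).le.trans hxx))
    have h := hrel x y
    rw [if_neg (Finset.ne_of_mem_erase hy).symm, zero_sub, Valuation.map_neg, map_mul, hx1,
      one_mul] at h
    exact h
  have h := (hd.neg).add (hnear.mono (mul_le_of_le_one_left' (val_p_lt_one hA).le))
  rwa [neg_sub, sub_add_sub_cancel] at h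

include hA in
/-- Two points which are close are equal. -/
theorem point_unique (hp : ∀ x : M, p • x = 0) {γ : A.ValueGroup} (hγ : Small A p γ) {x y : M}
    (h : L.InBall γ (single x 1 - single y 1)) : x = y := by
  classical
  set vp := A.valuation (p : ℚb) with hvp
  have hvp0 : vp ≠ 0 := val_p_ne_zero
  have hγ1 := hγ.le_one hA
  have hpp : p.Prime := Fact.out
  set w : AddMonoidAlgebra ℚb M := single (x - y) 1 - 1 with hw
  have hwb : L.InBall γ w := by
    have h' := h.mul (inBall_single (L := L) (x := -y) (r := 1))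
    rwa [map_one, mul_one, sub_mul, single_mul_single, single_mul_single, one_mul, ← sub_eq_add_neg,
      ← sub_eq_add_neg, sub_self, ← one_def] at h'
  set ρ := max γ (γ ^ (p - 1) / vp) with hρ
  have hρ1 : ρ < 1 := max_lt (hγ.lt_one hA) ((div_lt_one₀ (zero_lt_iff.mpr hvp0)).mpr hγ)
  have hstep : ∀ β ≤ γ, L.InBall β w → L.InBall (β * ρ) w := by
    intro β hβ hb
    have hβ1 : β ≤ 1 := hβ.trans hγ1
    have hpow : (1 + w) ^ p = 1 := by
      rw [hw, add_sub_cancel, single_pow, one_pow, hp, ← one_def]
    have hexp : (p : ℚb) • w = -((∑ i ∈ Finset.Ico 2 p, (p.choose i) • w ^ i) + w ^ p) := by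
      rw [eq_neg_iff_add_eq_zero]
      have hbin := add_pow w 1 p
      rw [add_comm w 1, hpow] at hbin
      simp only [one_pow, mul_one] at hbin
      rw [Finset.range_eq_Ico, Finset.sum_Ico_succ_top (Nat.zero_le p),
        Finset.sum_eq_sum_Ico_succ_bot hpp.pos,
        Finset.sum_eq_sum_Ico_succ_bot hpp.one_lt, Nat.choose_self, Nat.cast_one, mul_one,
        Nat.choose_zero_right, Nat.cast_one, pow_zero, mul_one, pow_one, Nat.choose_one_right] at hbin
      simp only [← nsmul_eq_mul'] at hbin
      rw [Nat.cast_smul_eq_nsmul]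
      simp only [zero_add, show (1 + 1 : ℕ) = 2 from rfl] at hbin
      linear_combination -hbin
    have hpw : L.InBall (vp * (β * ρ)) ((p : ℚb) • w) := by
      rw [hexp]
      refine InBall.neg (InBall.add (InBall.sum _ fun i hi => ?_) ?_)
      · obtain ⟨hi2, hip⟩ := Finset.mem_Ico.mp hi
        obtain ⟨c, hc⟩ := hpp.dvd_choose_self (by omega) hip
        rw [← Nat.cast_smul_eq_nsmul ℚb]
        refine ((hb.pow i).smul _).mono ?_
        rw [hc, Nat.cast_mul, map_mul, mul_assoc, ← hvp]
        refine mul_le_mul' le_rfl ((mul_le_of_le_one_left'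
          ((A.valuation_le_one_iff _).mpr (natCast_mem A c))).trans ?_)
        exact (pow_le_pow_right_of_le_one' hβ1 hi2).trans ((sq β).le.trans
          (mul_le_mul' le_rfl (hβ.trans (le_max_left _ _))))
      · refine (hb.pow p).mono ?_
        rw [show p = 1 + (p - 1) by have := hpp.one_lt; omega, pow_add, pow_one, mul_left_comm]
        refine mul_le_mul' le_rfl ((pow_le_pow_left₀ zero_le hβ _).trans ?_)
        calc γ ^ (p - 1) = vp * (γ ^ (p - 1) / vp) := (mul_div_cancel₀ _ hvp0).symm
          _ ≤ vp * ρ := mul_le_mul' le_rfl (le_max_right _ _)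
    have h2 := hpw.smul (p : ℚb)⁻¹
    rwa [smul_smul, inv_mul_cancel₀ (Nat.cast_ne_zero.mpr hpp.ne_zero), one_smul, map_inv₀, ← hvp,
      inv_mul_cancel_left₀ hvp0] at h2
  have hall : ∀ m : ℕ, L.InBall (γ * ρ ^ m) w := fun m => by
    induction m with
    | zero => simpa using hwb
    | succ m ih =>
      rw [pow_succ, ← mul_assoc]
      exact hstep _ (mul_le_of_le_one_right' (pow_le_one₀ zero_le hρ1.le)) ih
  by_contra hne
  obtain ⟨δ, hδ0, hδ⟩ := L.exists_scale
  obtain ⟨m, hm⟩ := exists_pow_le hA hρ1
    (mul_ne_zero (val_p_ne_zero (p := p) (A := A)) ((map_ne_zero A.valuation).mpr hδ0))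
  have hmem : δ • (fun z : M => if z = x - y then (1 : ℚb) else 0) ∈ L.S := hδ _ fun z => by
    by_cases hz : z = x - y
    · rw [if_pos hz]; exact one_mem A
    · rw [if_neg hz]; exact zero_mem A
  have hpair := hall m _ hmem
  rw [hw, map_sub, one_def, pairing_single, pairing_single] at hpair
  simp [sub_ne_zero.mpr hne, Ne.symm (sub_ne_zero.mpr hne)] at hpair
  have h3 := hpair.trans ((mul_le_of_le_one_left' hγ1).trans hm)
  exact absurd h3 (not_le.mpr (mul_lt_of_lt_one_left (zero_lt_iff.mpr ((map_ne_zero _).mpr hδ0))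
    (val_p_lt_one hA)))

end Fermat.Agent.FlatBound
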